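import Mathlib

/-!
# Level-one modular forms: integral spanning set, conjugates, bounded denominators

Package P1 of the Galois-descent route to S23 (helper76).

Main results (all for `ModularForm 𝒮ℒ k`, `k : ℤ` arbitrary):

* `span_intQ_eq_top`: level-one modular forms of weight `k` are spanned over `ℂ` by forms
  whose `q`-expansion has integer coefficients.
* `exists_qExpansion_map`: for every additive map `φ : ℂ →+ ℂ` and every level-one form `h`
  there is a level-one form of the same weight whose `q`-expansion is `φ` applied to the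
  `q`-expansion of `h`, coefficientwise.
* `exists_qExpansion_rat`: the same for additive `r : ℂ →+ ℚ`, with a bound on denominators.
-/

set_option autoImplicit false

namespace Fermat.Agent.S23.H76

open UpperHalfPlane ModularForm ModularFormClass EisensteinSeries MatrixGroups

/-- A power series over `ℂ` with integer coefficients. -/
def IntPS (p : PowerSeries ℂ) : Prop := ∀ n : ℕ, ∃ m : ℤ, p.coeff n = (m : ℂ)

theorem intPS_iff_map (p : PowerSeries ℂ) :
    IntPS p ↔ ∃ P : PowerSeries ℤ, PowerSeries.map (Int.castRingHom ℂ) P = p := by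
  constructor
  · intro h
    choose m hm using h
    refine ⟨PowerSeries.mk m, ?_⟩
    ext n
    simp [hm n]
  · rintro ⟨P, rfl⟩ n
    exact ⟨P.coeff n, by simp⟩

theorem IntPS.zero : IntPS 0 := fun _ => ⟨0, by simp⟩

theorem IntPS.one : IntPS 1 := (intPS_iff_map 1).2 ⟨1, by simp⟩

theorem IntPS.mul {p q : PowerSeries ℂ} (hp : IntPS p) (hq : IntPS q) : IntPS (p * q) := by
  obtain ⟨P, rfl⟩ := (intPS_iff_map p).1 hp
  obtain ⟨Q, rfl⟩ := (intPS_iff_map q).1 hq
  exact (intPS_iff_map _).2 ⟨P * Q, by simp⟩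

theorem IntPS.pow {p : PowerSeries ℂ} (hp : IntPS p) (n : ℕ) : IntPS (p ^ n) := by
  obtain ⟨P, rfl⟩ := (intPS_iff_map p).1 hp
  exact (intPS_iff_map _).2 ⟨P ^ n, by simp⟩

theorem IntPS.add {p q : PowerSeries ℂ} (hp : IntPS p) (hq : IntPS q) : IntPS (p + q) := by
  obtain ⟨P, rfl⟩ := (intPS_iff_map p).1 hp
  obtain ⟨Q, rfl⟩ := (intPS_iff_map q).1 hq
  exact (intPS_iff_map _).2 ⟨P + Q, by simp⟩

theorem IntPS.sub {p q : PowerSeries ℂ} (hp : IntPS p) (hq : IntPS q) : IntPS (p - q) := by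
  obtain ⟨P, rfl⟩ := (intPS_iff_map p).1 hp
  obtain ⟨Q, rfl⟩ := (intPS_iff_map q).1 hq
  exact (intPS_iff_map _).2 ⟨P - Q, by simp⟩

/-- A level-one modular form with integral `q`-expansion. -/
def IntQ {k : ℤ} (h : ModularForm 𝒮ℒ k) : Prop := IntPS (qExpansion 1 h)

theorem intPS_E₄ : IntPS (qExpansion 1 E₄) := by
  intro n
  rw [E_qExpansion_coeff (by norm_num) ⟨2, rfl⟩]
  split_ifs with h
  · exact ⟨1, by simp⟩
  · refine ⟨240 * (ArithmeticFunction.sigma 3 n : ℤ), ?_⟩
    norm_num [show bernoulli 4 = -1 / 30 by decide +kernel]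

theorem intPS_E₆ : IntPS (qExpansion 1 E₆) := by
  intro n
  rw [E_qExpansion_coeff (by norm_num) ⟨3, rfl⟩]
  split_ifs with h
  · exact ⟨1, by simp⟩
  · refine ⟨-504 * (ArithmeticFunction.sigma 5 n : ℤ), ?_⟩
    norm_num [show bernoulli 6 = 1 / 42 by decide +kernel]


/-- The weight-12 form `E₄³ - E₆² = 1728 Δ`. -/
noncomputable def D12 : ModularForm 𝒮ℒ 12 :=
  ModularForm.mcast (by decide) (E₄.pow 3) - ModularForm.mcast (by decide) (E₆.pow 2)

theorem D12_apply (z : ℍ) : D12 z = E₄ z ^ 3 - E₆ z ^ 2 := by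
  simp only [D12, coe_mcast, coe_pow, sub_apply, Pi.pow_apply]

theorem qExpansion_D12 :
    qExpansion 1 D12 = qExpansion 1 E₄ ^ 3 - qExpansion 1 E₆ ^ 2 := by
  simp only [D12, FunLike.coe_sub, coe_mcast,
    ModularForm.qExpansion_sub one_pos one_mem_strictPeriods_SL,
    ModularForm.qExpansion_pow one_pos one_mem_strictPeriods_SL]

theorem intPS_D12 : IntPS (qExpansion 1 D12) := by
  rw [qExpansion_D12]
  exact (intPS_E₄.pow 3).sub (intPS_E₆.pow 2)

/-- Multiplication by `E₄³ - E₆²`, as a linear map raising the weight by 12. -/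
noncomputable def mulD (k : ℤ) : ModularForm 𝒮ℒ (k - 12) →ₗ[ℂ] ModularForm 𝒮ℒ k where
  toFun h := ModularForm.mcast (by ring) (D12.mul h)
  map_add' a b := by
    ext z
    simp [mul_add]
  map_smul' c a := by
    ext z
    simp [mul_left_comm]

theorem mulD_apply (k : ℤ) (h : ModularForm 𝒮ℒ (k - 12)) (z : ℍ) :
    mulD k h z = (E₄ z ^ 3 - E₆ z ^ 2) * h z := by
  simp [mulD, D12_apply]

theorem qExpansion_mulD (k : ℤ) (h : ModularForm 𝒮ℒ (k - 12)) :
    qExpansion 1 (mulD k h) = qExpansion 1 D12 * qExpansion 1 h := by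
  simp only [mulD, LinearMap.coe_mk, AddHom.coe_mk, coe_mcast]
  exact ModularForm.qExpansion_mul one_pos one_mem_strictPeriods_SL D12 h

theorem IntQ.mulD {k : ℤ} {h : ModularForm 𝒮ℒ (k - 12)} (hh : IntQ h) : IntQ (mulD k h) := by
  unfold IntQ
  rw [qExpansion_mulD]
  exact intPS_D12.mul hh

/-- The monomial `E₄^a E₆^b` as a form of weight `k = 4a + 6b`. -/
noncomputable def monoE (a b : ℕ) (k : ℤ) (hk : (a : ℤ) * 4 + (b : ℤ) * 6 = k) :
    ModularForm 𝒮ℒ k :=
  ModularForm.mcast hk ((E₄.pow a).mul (E₆.pow b))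

theorem qExpansion_monoE (a b : ℕ) (k : ℤ) (hk : (a : ℤ) * 4 + (b : ℤ) * 6 = k) :
    qExpansion 1 (monoE a b k hk) = qExpansion 1 E₄ ^ a * qExpansion 1 E₆ ^ b := by
  simp only [monoE, coe_mcast]
  rw [ModularForm.qExpansion_mul one_pos one_mem_strictPeriods_SL,
    ModularForm.qExpansion_pow one_pos one_mem_strictPeriods_SL,
    ModularForm.qExpansion_pow one_pos one_mem_strictPeriods_SL]

theorem intQ_monoE (a b : ℕ) (k : ℤ) (hk : (a : ℤ) * 4 + (b : ℤ) * 6 = k) :
    IntQ (monoE a b k hk) := by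
  unfold IntQ
  rw [qExpansion_monoE]
  exact (intPS_E₄.pow a).mul (intPS_E₆.pow b)

theorem coeff_zero_monoE (a b : ℕ) (k : ℤ) (hk : (a : ℤ) * 4 + (b : ℤ) * 6 = k) :
    (qExpansion 1 (monoE a b k hk)).coeff 0 = 1 := by
  have h4 : PowerSeries.constantCoeff (qExpansion 1 E₄) = 1 := by
    rw [← PowerSeries.coeff_zero_eq_constantCoeff_apply]
    exact E_qExpansion_coeff_zero (by norm_num) ⟨2, rfl⟩
  have h6 : PowerSeries.constantCoeff (qExpansion 1 E₆) = 1 := by
    rw [← PowerSeries.coeff_zero_eq_constantCoeff_apply]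
    exact E_qExpansion_coeff_zero (by norm_num) ⟨3, rfl⟩
  rw [qExpansion_monoE, PowerSeries.coeff_zero_eq_constantCoeff_apply, map_mul, map_pow, map_pow,
    h4, h6, one_pow, one_pow, one_mul]

/-- Every even integer `k ≥ 4` is of the form `4a + 6b`. -/
theorem exists_four_six (k : ℤ) (hk : 4 ≤ k) (hev : Even k) :
    ∃ a b : ℕ, (a : ℤ) * 4 + (b : ℤ) * 6 = k := by
  obtain ⟨m, rfl⟩ := hev
  rcases Int.even_or_odd m with ⟨j, rfl⟩ | ⟨j, rfl⟩
  · exact ⟨j.toNat, 0, by omega⟩
  · exact ⟨(j - 1).toNat, 1, by omega⟩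

/-- **Integral spanning set.** Level-one modular forms of any weight are spanned by forms with
integral `q`-expansion. -/
theorem mem_span_intQ : ∀ (n : ℕ) (k : ℤ), k.toNat = n → ∀ f : ModularForm 𝒮ℒ k,
    f ∈ Submodule.span ℂ {h : ModularForm 𝒮ℒ k | IntQ h} := by
  intro n
  induction n using Nat.strong_induction_on with
  | _ n ih =>
  intro k hkn f
  rcases lt_or_ge k 0 with hneg | hnn
  · -- negative weight
    have : f = 0 := DFunLike.coe_injective (levelOne_neg_weight_eq_zero hneg f)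
    rw [this]; exact Submodule.zero_mem _
  rcases Int.even_or_odd k with hev | hodd
  swap
  · rw [ModularForm.levelOne_odd_weight_eq_zero hodd f]; exact Submodule.zero_mem _
  rcases lt_or_ge k 4 with hlt | hge
  · -- k = 0 or k = 2
    have hk02 : k = 0 ∨ k = 2 := by
      obtain ⟨m, rfl⟩ := hev
      omega
    rcases hk02 with rfl | rfl
    · obtain ⟨c, hc⟩ := levelOne_weight_zero_const f
      have hf : f = c • (1 : ModularForm 𝒮ℒ 0) := by
        ext z
        simp [hc]
      rw [hf]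
      refine Submodule.smul_mem _ _ (Submodule.subset_span ?_)
      show IntPS (qExpansion 1 (1 : ModularForm 𝒮ℒ 0))
      rw [ModularForm.qExpansion_one]
      exact IntPS.one
    · have : f = 0 := rank_zero_iff_forall_zero.mp levelOne_weight_two_rank_zero f
      rw [this]; exact Submodule.zero_mem _
  · -- k ≥ 4 even
    obtain ⟨a, b, hab⟩ := exists_four_six k hge hev
    set G := monoE a b k hab with hG
    set c₀ := (qExpansion 1 f).coeff 0 with hc₀
    set g : ModularForm 𝒮ℒ k := f - c₀ • G with hg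
    have hg0 : (qExpansion 1 g).coeff 0 = 0 := by
      rw [hg, FunLike.coe_sub, ModularForm.qExpansion_sub one_pos one_mem_strictPeriods_SL,
        FunLike.coe_smul, ModularForm.qExpansion_smul one_pos one_mem_strictPeriods_SL, map_sub,
        PowerSeries.coeff_smul, coeff_zero_monoE, smul_eq_mul, mul_one, sub_self]
    set f' : ModularForm 𝒮ℒ (k - 12) := CuspForm.discriminantEquiv (toCuspForm g hg0) with hf'
    have hgf' : g = (1 / 1728 : ℂ) • mulD k f' := by
      ext z
      have h1 := discriminant_mul_discriminantEquiv_apply (toCuspForm g hg0) z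
      rw [toCuspForm_apply, discriminant_eq_E₄_cube_sub_E₆_sq] at h1
      rw [smul_apply, mulD_apply, ← h1, smul_eq_mul]
      ring
    have hf'mem : f' ∈ Submodule.span ℂ {h : ModularForm 𝒮ℒ (k - 12) | IntQ h} :=
      ih (k - 12).toNat (by omega) (k - 12) rfl f'
    have hmul : mulD k f' ∈ Submodule.span ℂ {h : ModularForm 𝒮ℒ k | IntQ h} := by
      have hle : Submodule.span ℂ {h : ModularForm 𝒮ℒ (k - 12) | IntQ h} ≤
          (Submodule.span ℂ {h : ModularForm 𝒮ℒ k | IntQ h}).comap (mulD k) :=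
        Submodule.span_le.2 fun h hh => Submodule.subset_span (IntQ.mulD hh)
      exact hle hf'mem
    have hfeq : f = c₀ • G + (1 / 1728 : ℂ) • mulD k f' := by
      rw [← hgf', hg]; abel
    rw [hfeq]
    exact Submodule.add_mem _ (Submodule.smul_mem _ _ (Submodule.subset_span (intQ_monoE a b k hab)))
      (Submodule.smul_mem _ _ hmul)

theorem span_intQ_eq_top (k : ℤ) :
    Submodule.span ℂ {h : ModularForm 𝒮ℒ k | IntQ h} = ⊤ :=
  eq_top_iff.2 fun f _ => mem_span_intQ _ k rfl f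


/-- Auxiliary strengthened form of `exists_qExpansion_map`. -/
theorem exists_qExpansion_map_mul (φ : ℂ →+ ℂ) {k : ℤ} (h : ModularForm 𝒮ℒ k) :
    ∀ c : ℂ, ∃ h' : ModularForm 𝒮ℒ k,
      ∀ n, (qExpansion 1 h').coeff n = φ (c * (qExpansion 1 h).coeff n) := by
  have hmem : h ∈ Submodule.span ℂ {h : ModularForm 𝒮ℒ k | IntQ h} := by
    rw [span_intQ_eq_top]; trivial
  induction hmem using Submodule.span_induction with
  | mem x hx =>
    intro c
    refine ⟨φ c • x, fun n => ?_⟩
    obtain ⟨m, hm⟩ := hx n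
    rw [FunLike.coe_smul, ModularForm.qExpansion_smul one_pos one_mem_strictPeriods_SL,
      PowerSeries.coeff_smul, hm, smul_eq_mul, mul_comm c, mul_comm (φ c), ← zsmul_eq_mul,
      ← zsmul_eq_mul, map_zsmul]
  | zero =>
    intro c
    exact ⟨0, fun n => by simp [qExpansion_zero]⟩
  | add x y _ _ hx hy =>
    intro c
    obtain ⟨x', hx'⟩ := hx c
    obtain ⟨y', hy'⟩ := hy c
    refine ⟨x' + y', fun n => ?_⟩
    rw [FunLike.coe_add, ModularForm.qExpansion_add one_pos one_mem_strictPeriods_SL, map_add,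
      hx', hy', FunLike.coe_add, ModularForm.qExpansion_add one_pos one_mem_strictPeriods_SL,
      map_add, mul_add, map_add]
  | smul a x _ hx =>
    intro c
    obtain ⟨x', hx'⟩ := hx (c * a)
    refine ⟨x', fun n => ?_⟩
    rw [hx', FunLike.coe_smul, ModularForm.qExpansion_smul one_pos one_mem_strictPeriods_SL,
      PowerSeries.coeff_smul, smul_eq_mul, mul_assoc]

/-- **Coefficientwise additive maps preserve level-one modular forms.** For every additive map
`φ : ℂ →+ ℂ` (e.g. a field automorphism of `ℂ`, or a `ℚ`-linear projection onto `ℚ`) and every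
level-one modular form `h` there is a level-one modular form of the same weight whose
`q`-expansion is obtained by applying `φ` to every coefficient of the `q`-expansion of `h`. -/
theorem exists_qExpansion_map (φ : ℂ →+ ℂ) {k : ℤ} (h : ModularForm 𝒮ℒ k) :
    ∃ h' : ModularForm 𝒮ℒ k, ∀ n, (qExpansion 1 h').coeff n = φ ((qExpansion 1 h).coeff n) := by
  obtain ⟨h', hh'⟩ := exists_qExpansion_map_mul φ h 1
  exact ⟨h', fun n => by rw [hh' n, one_mul]⟩

/-- Version of `exists_qExpansion_map` for cusp forms. -/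
theorem exists_qExpansion_map_cusp (φ : ℂ →+ ℂ) {k : ℤ} (h : CuspForm 𝒮ℒ k) :
    ∃ h' : CuspForm 𝒮ℒ k, ∀ n, (qExpansion 1 h').coeff n = φ ((qExpansion 1 h).coeff n) := by
  obtain ⟨H', hH'⟩ := exists_qExpansion_map φ (CuspForm.toModularFormₗ h)
  have hcoe : (⇑(CuspForm.toModularFormₗ h) : ℍ → ℂ) = ⇑h := rfl
  rw [hcoe] at hH'
  have h0 : (qExpansion 1 H').coeff 0 = 0 := by
    rw [hH' 0, CuspFormClass.qExpansion_coeff_zero h one_pos one_mem_strictPeriods_SL, map_zero]
  exact ⟨toCuspForm H' h0, fun n => hH' n⟩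

/-- Auxiliary strengthened form of `exists_bounded_denominators`. -/
theorem exists_bounded_denominators_mul (r : ℂ →+ ℚ) {k : ℤ} (h : ModularForm 𝒮ℒ k) :
    ∀ c : ℂ, ∃ M : ℕ, M ≠ 0 ∧
      ∀ n, ∃ m : ℤ, (M : ℚ) * r (c * (qExpansion 1 h).coeff n) = (m : ℚ) := by
  have hmem : h ∈ Submodule.span ℂ {h : ModularForm 𝒮ℒ k | IntQ h} := by
    rw [span_intQ_eq_top]; trivial
  induction hmem using Submodule.span_induction with
  | mem x hx =>
    intro c
    refine ⟨(r c).den, (r c).den_ne_zero, fun n => ?_⟩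
    obtain ⟨m, hm⟩ := hx n
    refine ⟨(r c).num * m, ?_⟩
    rw [hm, mul_comm c, ← zsmul_eq_mul, map_zsmul, zsmul_eq_mul, Int.cast_mul,
      ← mul_assoc, mul_comm ((r c).den : ℚ), mul_assoc, Rat.den_mul_eq_num, mul_comm]
  | zero =>
    intro c
    exact ⟨1, one_ne_zero, fun n => ⟨0, by simp [qExpansion_zero]⟩⟩
  | add x y _ _ hx hy =>
    intro c
    obtain ⟨M₁, hM₁, hx'⟩ := hx c
    obtain ⟨M₂, hM₂, hy'⟩ := hy c
    refine ⟨M₁ * M₂, mul_ne_zero hM₁ hM₂, fun n => ?_⟩
    obtain ⟨m₁, hm₁⟩ := hx' n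
    obtain ⟨m₂, hm₂⟩ := hy' n
    refine ⟨M₂ * m₁ + M₁ * m₂, ?_⟩
    rw [FunLike.coe_add, ModularForm.qExpansion_add one_pos one_mem_strictPeriods_SL, map_add,
      mul_add, map_add]
    push_cast
    rw [← hm₁, ← hm₂]
    ring
  | smul a x _ hx =>
    intro c
    obtain ⟨M, hM, hx'⟩ := hx (c * a)
    refine ⟨M, hM, fun n => ?_⟩
    obtain ⟨m, hm⟩ := hx' n
    refine ⟨m, ?_⟩
    rw [FunLike.coe_smul, ModularForm.qExpansion_smul one_pos one_mem_strictPeriods_SL,
      PowerSeries.coeff_smul, smul_eq_mul, ← mul_assoc, hm]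

/-- **Bounded denominators.** For an additive map `r : ℂ →+ ℚ` and a level-one modular form `h`,
the rational numbers `r (aₙ(h))` have a common denominator. -/
theorem exists_bounded_denominators (r : ℂ →+ ℚ) {k : ℤ} (h : ModularForm 𝒮ℒ k) :
    ∃ M : ℕ, M ≠ 0 ∧ ∀ n, ∃ m : ℤ, (M : ℚ) * r ((qExpansion 1 h).coeff n) = (m : ℚ) := by
  obtain ⟨M, hM, hh⟩ := exists_bounded_denominators_mul r h 1
  exact ⟨M, hM, fun n => by simpa using hh n⟩

/-- Level-one forms with rational `q`-expansion have bounded denominators. -/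
theorem exists_bounded_denominators_of_rat {k : ℤ} (h : ModularForm 𝒮ℒ k)
    (hrat : ∀ n, ∃ q : ℚ, (qExpansion 1 h).coeff n = (q : ℂ)) :
    ∃ M : ℕ, M ≠ 0 ∧ ∀ n, ∃ m : ℤ, (M : ℂ) * (qExpansion 1 h).coeff n = (m : ℂ) := by
  -- a `ℚ`-linear retraction `ℂ → ℚ`
  obtain ⟨r, hr⟩ := LinearMap.exists_leftInverse_of_injective
    (Algebra.linearMap ℚ ℂ) (LinearMap.ker_eq_bot.2 (algebraMap ℚ ℂ).injective)
  have hr' : ∀ q : ℚ, r (q : ℂ) = q := fun q => by
    have := LinearMap.congr_fun hr q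
    simpa using this
  obtain ⟨M, hM, hh⟩ := exists_bounded_denominators r.toAddMonoidHom h
  refine ⟨M, hM, fun n => ?_⟩
  obtain ⟨q, hq⟩ := hrat n
  obtain ⟨m, hm⟩ := hh n
  refine ⟨m, ?_⟩
  have h1 : (M : ℚ) * q = m := by
    have := hm
    rw [hq] at this
    simpa [hr' q] using this
  rw [hq]
  exact_mod_cast congrArg (fun x : ℚ => (x : ℂ)) h1

end Fermat.Agent.S23.H76
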