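import Mathlib
import Fermat.Prelude.Def_CuspForm_HeckeAlgebra
import Fermat.Prelude.Def_CuspForm_IntegralStructure
import Fermat.Prelude.Thm_CuspForm_intLattice_fg
import Fermat.Agent.S22.Finish

/-!
# S22 glue: an integral structure in weight `k` makes the Hecke algebra a finite `ℤ`-module

If the cusp forms of weight `k` on `Γ₀(N)` are spanned over `ℂ` by forms with integral
`q`-expansion (`CuspForm.HasIntegralStructure N k`), then every cusp form has its `q`-coefficients
in a finitely generated additive subgroup of `ℂ`, and hence (by `Fermat.Agent.S22.Finish`) the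
Hecke algebra is a finite `ℤ`-module.
-/

set_option autoImplicit false

noncomputable section

open UpperHalfPlane ModularFormClass

namespace Fermat.Agent.S23.H76

open Fermat.Agent.S22 in
/-- An integral structure gives finitely generated coefficient modules. -/
theorem hasFGCoeffs_of_hasIntegralStructure (N : ℕ) (k : ℤ)
    (h : CuspForm.HasIntegralStructure N k) : Fermat.Agent.S22.HasFGCoeffs N k := by
  intro f
  have hf : f ∈ Submodule.span ℂ
      ((CuspForm.intLattice N k : Submodule ℤ (CuspForm (CongruenceSubgroup.Gamma0 N) k)) :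
        Set (CuspForm (CongruenceSubgroup.Gamma0 N) k)) := by
    have h' : Submodule.span ℂ
      ((CuspForm.intLattice N k : Submodule ℤ (CuspForm (CongruenceSubgroup.Gamma0 N) k)) :
        Set (CuspForm (CongruenceSubgroup.Gamma0 N) k)) = ⊤ := h
    rw [h']
    exact Submodule.mem_top
  suffices H : ∃ O : Submodule ℤ ℂ, O.FG ∧ ∀ n : ℕ, coeffFun N k n f ∈ O by
    obtain ⟨O, hO, hmem⟩ := H
    exact ⟨O, hO, fun n => hmem n⟩
  induction hf using Submodule.span_induction with
  | mem g hg =>
    refine ⟨Submodule.span ℤ {(1 : ℂ)}, Submodule.fg_span_singleton _, fun n => ?_⟩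
    obtain ⟨m, hm⟩ := (P2MW.S_CuspForm_intLattice_fg.W3WsD.mem_intLattice_iff g).1 hg n
    rw [coeffFun_apply, hm]
    have : (m : ℂ) = m • (1 : ℂ) := by simp
    rw [this]
    exact Submodule.smul_mem _ _ (Submodule.mem_span_singleton_self _)
  | zero =>
    exact ⟨⊥, Submodule.fg_bot, fun n => by rw [map_zero]; exact Submodule.zero_mem _⟩
  | add g₁ g₂ _ _ h₁ h₂ =>
    obtain ⟨O₁, hO₁, hm₁⟩ := h₁
    obtain ⟨O₂, hO₂, hm₂⟩ := h₂
    refine ⟨O₁ ⊔ O₂, hO₁.sup hO₂, fun n => ?_⟩
    rw [map_add]
    exact Submodule.add_mem_sup (hm₁ n) (hm₂ n)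
  | smul c g _ hg =>
    obtain ⟨O, hO, hm⟩ := hg
    refine ⟨O.map ((LinearMap.mulLeft ℂ c).restrictScalars ℤ), hO.map _, fun n => ?_⟩
    rw [map_smul]
    exact ⟨coeffFun N k n g, hm n, by simp⟩

/-- **S22 glue.** In weight `k ≥ 1`, an integral structure on the cusp forms of level `Γ₀(N)`
makes the Hecke algebra a finite `ℤ`-module. -/
theorem heckeAlgebra_finite_of_hasIntegralStructure (N : ℕ) [NeZero N] (k : ℤ) (S : Set ℕ)
    (hk : 1 ≤ k) (h : CuspForm.HasIntegralStructure N k) :
    Module.Finite ℤ (CuspForm.heckeAlgebra N k S) :=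
  Fermat.Agent.S22.moduleFinite_heckeAlgebra_of_hasFGCoeffs N k hk S
    (hasFGCoeffs_of_hasIntegralStructure N k h)

/-- In weight `k ≤ 0` the Hecke algebra is trivially a finite `ℤ`-module. -/
theorem heckeAlgebra_finite_of_nonpos (N : ℕ) [NeZero N] (k : ℤ) (S : Set ℕ) (hk : k ≤ 0) :
    Module.Finite ℤ (CuspForm.heckeAlgebra N k S) :=
  Fermat.Agent.S22.moduleFinite_heckeAlgebra_of_nonpos N k hk S

/-- **S22 from integral structures in every positive weight.** -/
theorem heckeAlgebra_finite_of_forall (N : ℕ) [NeZero N]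
    (hall : ∀ k : ℤ, 1 ≤ k → CuspForm.HasIntegralStructure N k) (k : ℤ) (S : Set ℕ) :
    Module.Finite ℤ (CuspForm.heckeAlgebra N k S) := by
  rcases le_or_gt 1 k with hk | hk
  · exact heckeAlgebra_finite_of_hasIntegralStructure N k S hk (hall k hk)
  · exact heckeAlgebra_finite_of_nonpos N k S (by omega)

end Fermat.Agent.S23.H76

end
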