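import Fermat.Agent.S23.Defs
import Fermat.Agent.S23.H76.LevelOne

/-!
# P1 of the S23 plan, in the exact shape of the shared interface

`levelOne_span_bddDenom`: every level-one modular form is a finite `ℂ`-linear combination of
level-one forms whose `q`-expansion has bounded denominators (in fact integer coefficients).
-/

set_option autoImplicit false

namespace Fermat.Agent.S23.H76

open UpperHalfPlane ModularForm MatrixGroups

theorem IntPS.bddDenom {u : PowerSeries ℂ} (h : IntPS u) : BddDenom u := by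
  obtain ⟨P, rfl⟩ := (intPS_iff_map u).1 h
  exact ⟨1, one_pos, P, by simp⟩

theorem levelOne_span_bddDenom (K : ℤ) (E : ModularForm 𝒮ℒ K) :
    ∃ (n : ℕ) (c : Fin n → ℂ) (B : Fin n → ModularForm 𝒮ℒ K),
      (∀ i, BddDenom (qExpansion 1 (B i))) ∧ E = ∑ i, c i • B i := by
  have hmem : E ∈ Submodule.span ℂ {h : ModularForm 𝒮ℒ K | IntQ h} := by
    rw [span_intQ_eq_top]; trivial
  obtain ⟨n, c, g, rfl⟩ := Submodule.mem_span_set'.1 hmem
  exact ⟨n, c, fun i => (g i : ModularForm 𝒮ℒ K), fun i => (g i).2.bddDenom, rfl⟩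

end Fermat.Agent.S23.H76
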